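import Mathlib
import Fermat.Agent.MU.S48.W.G.Port.Diam
import Fermat.Agent.MU.Lib.BadRed.AtkinLehner
import Fermat.Agent.MU.S24.EmbF
import Fermat.Agent.MU.S36.Ig.EpsGen
import Fermat.Agent.MU.S48.W.G.Red.Defs
import Fermat.Agent.MU.Lib.RR.OfModularC
import Fermat.Agent.MU.S48.W.G.Red.Int
import Fermat.Agent.MU.S48.W.G.Red.Model
import Fermat.Agent.MU.Lib.GoodRed.ModularData
import Fermat.Agent.MU.Lib.GaussVal.Degree
import Fermat.Agent.Lib.FrobTrace.Residue
import Fermat.Agent.MU.S48.W.G.P23.Final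

section MergeWrap_S48_W_G_P23_FrickeAbs -- from S48/W/G/P23/FrickeAbs.lean

set_option autoImplicit false

noncomputable section

namespace Fermat.Agent.S48WG23

open Polynomial IntermediateField Fermat.Agent.S48WPort

section NormalForm

variable {K F κ : Type*} [Field K] [Field F] [Field κ] [Algebra K F]
  {A : ValuationSubring K} [Algebra (IsLocalRing.ResidueField A) κ]
  {O : ValuationSubring F} {ρ : O →+* κ}

/-- a value of a primitive polynomial at an element with transcendental residue is a unit. -/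
theorem fr_unit_aeval (hO : ∀ c : K, c ∈ A → algebraMap K F c ∈ O)
    (hρ : ∀ (c : K) (hc : c ∈ A), ρ ⟨algebraMap K F c, hO c hc⟩ =
      algebraMap (IsLocalRing.ResidueField A) κ (IsLocalRing.residue A ⟨c, hc⟩))
    (hker : ∀ u : O, ¬ IsUnit u → ρ u = 0)
    (x : O) (htr : Transcendental (IsLocalRing.ResidueField A) (ρ x))
    (r₁ : A[X]) (hr₁ : r₁.map (IsLocalRing.residue A) ≠ 0) :
    ∃ P : Oˣ, ((P : O) : F) = aeval (x : F) (r₁.map A.subtype) := by
  obtain ⟨P, hP, hPρ⟩ := diam_res_aeval hO hρ x r₁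
  have hPne : ρ P ≠ 0 := by
    rw [hPρ]
    intro h0
    exact hr₁ (transcendental_iff.mp htr _ h0)
  have hPu : IsUnit P := by
    by_contra h
    exact hPne (hker P h)
  obtain ⟨Pu, rfl⟩ := hPu
  exact ⟨Pu, hP⟩

/-- **normal form** of the elements of `O ∩ K(x)`: `u · s₁(x) = c · r₁(x)` with `c ∈ A` and
`r₁, s₁ ∈ A[X]` primitive. -/
theorem fr_normal_form (hO : ∀ c : K, c ∈ A → algebraMap K F c ∈ O)
    (hO' : ∀ c : K, algebraMap K F c ∈ O → c ∈ A)
    (hρ : ∀ (c : K) (hc : c ∈ A), ρ ⟨algebraMap K F c, hO c hc⟩ =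
      algebraMap (IsLocalRing.ResidueField A) κ (IsLocalRing.residue A ⟨c, hc⟩))
    (hker : ∀ u : O, ¬ IsUnit u → ρ u = 0)
    (x : O) (htr : Transcendental (IsLocalRing.ResidueField A) (ρ x))
    (u : F) (huO : u ∈ O) (hu : u ∈ K⟮(x : F)⟯) :
    ∃ (c : K) (r₁ s₁ : A[X]), c ∈ A ∧ r₁.map (IsLocalRing.residue A) ≠ 0 ∧
      s₁.map (IsLocalRing.residue A) ≠ 0 ∧
      u * aeval (x : F) (s₁.map A.subtype) =
        algebraMap K F c * aeval (x : F) (r₁.map A.subtype) := by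
  by_cases hu0 : u = 0
  · refine ⟨0, 1, 1, zero_mem _, ?_, ?_, ?_⟩
    · rw [Polynomial.map_one]; exact one_ne_zero
    · rw [Polynomial.map_one]; exact one_ne_zero
    · rw [hu0, zero_mul, map_zero, zero_mul]
  obtain ⟨r, s, hrs⟩ := (IntermediateField.mem_adjoin_simple_iff K u).mp hu
  have hr0 : aeval (x : F) r ≠ 0 := by
    intro h0
    rw [h0, zero_div] at hrs
    exact hu0 hrs
  have hs0 : aeval (x : F) s ≠ 0 := by
    intro h0
    rw [h0, div_zero] at hrs
    exact hu0 hrs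
  have hr : r ≠ 0 := fun h => hr0 (by rw [h, map_zero])
  have hs : s ≠ 0 := fun h => hs0 (by rw [h, map_zero])
  obtain ⟨a, r₁, ha, hr₁, hr₁'⟩ := diam_exists_prim A r hr
  obtain ⟨b, s₁, hb, hs₁, hs₁'⟩ := diam_exists_prim A s hs
  obtain ⟨Pu, hP⟩ := fr_unit_aeval hO hρ hker x htr r₁ hr₁'
  obtain ⟨Su, hS⟩ := fr_unit_aeval hO hρ hker x htr s₁ hs₁'
  have hPF : ((Pu : O) : F) ≠ 0 := by
    intro h0
    have : (Pu : O) = 0 := Subtype.ext h0
    exact Pu.ne_zero this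
  have hSF : ((Su : O) : F) ≠ 0 := by
    intro h0
    have : (Su : O) = 0 := Subtype.ext h0
    exact Su.ne_zero this
  have h1 : aeval (x : F) r = algebraMap K F a * ((Pu : O) : F) := by
    rw [hP]
    conv_lhs => rw [hr₁]
    rw [map_mul, Polynomial.aeval_C]
  have h2 : aeval (x : F) s = algebraMap K F b * ((Su : O) : F) := by
    rw [hS]
    conv_lhs => rw [hs₁]
    rw [map_mul, Polynomial.aeval_C]
  have hbF : algebraMap K F b ≠ 0 := by simpa using hb
  have hinvP : (((Pu⁻¹ : Oˣ) : O) : F) = (((Pu : O) : F))⁻¹ := by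
    have h5 : ((Pu : O) : F) * (((Pu⁻¹ : Oˣ) : O) : F) = 1 :=
      congrArg (fun z : O => (z : F)) (Units.mul_inv Pu)
    exact eq_inv_of_mul_eq_one_right h5
  have h3 : algebraMap K F (a / b) = u * ((Su : O) : F) * (((Pu⁻¹ : Oˣ) : O) : F) := by
    rw [hinvP, hrs, h1, h2, map_div₀]
    field_simp
  have hcO : algebraMap K F (a / b) ∈ O := by
    rw [h3]
    exact mul_mem (mul_mem huO (Su : O).2) ((Pu⁻¹ : Oˣ) : O).2
  have hcA : a / b ∈ A := hO' _ hcO
  refine ⟨a / b, r₁, s₁, hcA, hr₁', hs₁', ?_⟩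
  rw [← hP, ← hS, hrs, h1, h2, map_div₀]
  field_simp

end NormalForm

section Integral

variable {K F k κ : Type*} [Field K] [Field F] [Field k] [Field κ] [Algebra K F] [Algebra k κ]
  {O : ValuationSubring F} {ρ : O →+* κ} {E : IntermediateField K F}
  {κ₀ : IntermediateField k κ}

/-- every element of `O` is integral over `O ∩ E`, when `[F : E]` residues are linearly
independent over `κ₀ ⊇ ρ(O ∩ E)` (first half of `diam_stable`). -/
theorem fr_isIntegral [FiniteDimensional E F] {n : ℕ} (hn : Module.finrank E F = n)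
    (hker : ∀ u : O, ¬ IsUnit u → ρ u = 0)
    (hE : ∀ u : O, (u : F) ∈ E → ρ u ∈ κ₀)
    (y : Fin n → O) (hy : LinearIndependent κ₀ (fun i => ρ (y i)))
    (f : F) (hf : f ∈ O) :
    IsIntegral (↥(O.toSubring ⊓ E.toSubring)) f := by
  have hli := diam_linearIndependent hker hE y hy
  have hspan : Submodule.span E (Set.range fun i => ((y i : O) : F)) = ⊤ :=
    hli.span_eq_top_of_card_eq_finrank' (by rw [Fintype.card_fin, hn])
  have hcomb : ∀ z ∈ O, ∃ e : Fin n → E, (∀ i, (e i : F) ∈ O) ∧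
      z = ∑ i, (e i : F) * ((y i : O) : F) := by
    intro z hz
    have hz' : z ∈ Submodule.span E (Set.range fun i => ((y i : O) : F)) := by
      rw [hspan]
      trivial
    obtain ⟨e, he⟩ := (Submodule.mem_span_range_iff_exists_fun E).mp hz'
    have he' : z = ∑ i, (e i : F) * ((y i : O) : F) := by
      rw [← he]
      rfl
    exact ⟨e, fun i => diam_mem_of_sum_mem hker hE y hy e (he' ▸ hz) i, he'⟩
  let R : Subring F := O.toSubring ⊓ E.toSubring
  let N : Submodule R F := Submodule.span R (Set.range fun i => ((y i : O) : F))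
  have hN_le : ∀ z ∈ N, z ∈ O := by
    intro z hz
    induction hz using Submodule.span_induction with
    | mem z hz =>
      obtain ⟨i, rfl⟩ := hz
      exact (y i).2
    | zero => exact zero_mem _
    | add a b _ _ ha hb => exact add_mem ha hb
    | smul r a _ ha => exact mul_mem r.2.1 ha
  have hfN : ∀ z ∈ N, f • z ∈ N := by
    intro z hz
    have h1 : f * z ∈ O := mul_mem hf (hN_le z hz)
    obtain ⟨e, heO, hsum⟩ := hcomb _ h1
    rw [smul_eq_mul, hsum]
    refine Submodule.sum_mem _ fun i _ => ?_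
    have h2 : (e i : F) * ((y i : O) : F) =
        (⟨(e i : F), ⟨heO i, (e i).2⟩⟩ : R) • ((y i : O) : F) := rfl
    rw [h2]
    exact Submodule.smul_mem _ _ (Submodule.subset_span ⟨i, rfl⟩)
  have hnpos : 0 < n := by
    rw [← hn]
    exact Module.finrank_pos
  have hN0 : N ≠ ⊥ := by
    intro h0
    have h1 : ((y ⟨0, hnpos⟩ : O) : F) ∈ N := Submodule.subset_span ⟨⟨0, hnpos⟩, rfl⟩
    rw [h0, Submodule.mem_bot] at h1
    exact hli.ne_zero ⟨0, hnpos⟩ h1
  exact isIntegral_of_smul_mem_submodule N hN0 (Submodule.fg_span (Set.finite_range _)) f hfN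

end Integral

section Transport

variable {K F₁ F₂ κ₁ κ₂ : Type*} [Field K] [Field F₁] [Field F₂] [Field κ₁] [Field κ₂]
  [Algebra K F₁] [Algebra K F₂]
  {A : ValuationSubring K} [Algebra (IsLocalRing.ResidueField A) κ₁]
  [Algebra (IsLocalRing.ResidueField A) κ₂]
  {O₁ : ValuationSubring F₁} {ρ₁ : O₁ →+* κ₁} {O₂ : ValuationSubring F₂} {ρ₂ : O₂ →+* κ₂}

/-- `φ` maps `O₁ ∩ K(x)` into `O₂`. -/
theorem fr_map_mem_base (hO₁ : ∀ c : K, c ∈ A → algebraMap K F₁ c ∈ O₁)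
    (hO₁' : ∀ c : K, algebraMap K F₁ c ∈ O₁ → c ∈ A)
    (hρ₁ : ∀ (c : K) (hc : c ∈ A), ρ₁ ⟨algebraMap K F₁ c, hO₁ c hc⟩ =
      algebraMap (IsLocalRing.ResidueField A) κ₁ (IsLocalRing.residue A ⟨c, hc⟩))
    (hker₁ : ∀ u : O₁, ¬ IsUnit u → ρ₁ u = 0)
    (x : F₁) (hx : x ∈ O₁) (htr₁ : Transcendental (IsLocalRing.ResidueField A) (ρ₁ ⟨x, hx⟩))
    (hO₂ : ∀ c : K, c ∈ A → algebraMap K F₂ c ∈ O₂)
    (hρ₂ : ∀ (c : K) (hc : c ∈ A), ρ₂ ⟨algebraMap K F₂ c, hO₂ c hc⟩ =
      algebraMap (IsLocalRing.ResidueField A) κ₂ (IsLocalRing.residue A ⟨c, hc⟩))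
    (hker₂ : ∀ u : O₂, ¬ IsUnit u → ρ₂ u = 0)
    (φ : F₁ →ₐ[K] F₂) (hφx : φ x ∈ O₂)
    (htr₂ : Transcendental (IsLocalRing.ResidueField A) (ρ₂ ⟨φ x, hφx⟩))
    (u : F₁) (huO : u ∈ O₁) (hu : u ∈ K⟮x⟯) : φ u ∈ O₂ := by
  obtain ⟨c, r₁, s₁, hc, hr₁, hs₁, h⟩ :=
    fr_normal_form hO₁ hO₁' hρ₁ hker₁ ⟨x, hx⟩ htr₁ u huO hu
  obtain ⟨Pu, hP⟩ := fr_unit_aeval hO₂ hρ₂ hker₂ ⟨φ x, hφx⟩ htr₂ r₁ hr₁
  obtain ⟨Su, hS⟩ := fr_unit_aeval hO₂ hρ₂ hker₂ ⟨φ x, hφx⟩ htr₂ s₁ hs₁
  have h' := congrArg φ h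
  rw [map_mul, map_mul, AlgHom.commutes, ← Polynomial.aeval_algHom_apply,
    ← Polynomial.aeval_algHom_apply] at h'
  change φ u * aeval (φ x) (s₁.map A.subtype) =
    algebraMap K F₂ c * aeval (φ x) (r₁.map A.subtype) at h'
  have hP' : ((Pu : O₂) : F₂) = aeval (φ x) (r₁.map A.subtype) := hP
  have hS' : ((Su : O₂) : F₂) = aeval (φ x) (s₁.map A.subtype) := hS
  rw [← hP', ← hS'] at h'
  have hSF : ((Su : O₂) : F₂) ≠ 0 := by
    intro h0
    have : (Su : O₂) = 0 := Subtype.ext h0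
    exact Su.ne_zero this
  have hinvS : (((Su⁻¹ : O₂ˣ) : O₂) : F₂) = (((Su : O₂) : F₂))⁻¹ := by
    have h5 : ((Su : O₂) : F₂) * (((Su⁻¹ : O₂ˣ) : O₂) : F₂) = 1 :=
      congrArg (fun z : O₂ => (z : F₂)) (Units.mul_inv Su)
    exact eq_inv_of_mul_eq_one_right h5
  have h3 : φ u = algebraMap K F₂ c * ((Pu : O₂) : F₂) * (((Su⁻¹ : O₂ˣ) : O₂) : F₂) := by
    rw [hinvS, ← h']
    field_simp
  rw [h3]
  exact mul_mem (mul_mem (hO₂ c hc) (Pu : O₂).2) ((Su⁻¹ : O₂ˣ) : O₂).2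

/-- **`φ (O₁) ⊆ O₂`.** -/
theorem fr_map_mem (hO₁ : ∀ c : K, c ∈ A → algebraMap K F₁ c ∈ O₁)
    (hO₁' : ∀ c : K, algebraMap K F₁ c ∈ O₁ → c ∈ A)
    (hρ₁ : ∀ (c : K) (hc : c ∈ A), ρ₁ ⟨algebraMap K F₁ c, hO₁ c hc⟩ =
      algebraMap (IsLocalRing.ResidueField A) κ₁ (IsLocalRing.residue A ⟨c, hc⟩))
    (hker₁ : ∀ u : O₁, ¬ IsUnit u → ρ₁ u = 0) (hsurj₁ : Function.Surjective ρ₁)
    (x : F₁) (hx : x ∈ O₁) (htr₁ : Transcendental (IsLocalRing.ResidueField A) (ρ₁ ⟨x, hx⟩))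
    [FiniteDimensional K⟮x⟯ F₁]
    (hdeg : Module.finrank K⟮x⟯ F₁ ≤
      Module.finrank (IsLocalRing.ResidueField A)⟮ρ₁ ⟨x, hx⟩⟯ κ₁)
    (hO₂ : ∀ c : K, c ∈ A → algebraMap K F₂ c ∈ O₂)
    (hρ₂ : ∀ (c : K) (hc : c ∈ A), ρ₂ ⟨algebraMap K F₂ c, hO₂ c hc⟩ =
      algebraMap (IsLocalRing.ResidueField A) κ₂ (IsLocalRing.residue A ⟨c, hc⟩))
    (hker₂ : ∀ u : O₂, ¬ IsUnit u → ρ₂ u = 0)
    (φ : F₁ →ₐ[K] F₂) (hφx : φ x ∈ O₂)
    (htr₂ : Transcendental (IsLocalRing.ResidueField A) (ρ₂ ⟨φ x, hφx⟩))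
    (f : F₁) (hf : f ∈ O₁) : φ f ∈ O₂ := by
  have hE : ∀ u : O₁, (u : F₁) ∈ K⟮x⟯ → ρ₁ u ∈ (IsLocalRing.ResidueField A)⟮ρ₁ ⟨x, hx⟩⟯ :=
    fun u hu => diam_res_mem hO₁ hO₁' hρ₁ hker₁ ⟨x, hx⟩ htr₁ u hu
  obtain ⟨y, hy⟩ := diam_exists_lift (E := K⟮x⟯) (ρ := ρ₁) hdeg hsurj₁
  obtain ⟨q, hq, hqf⟩ := fr_isIntegral (E := K⟮x⟯) rfl hker₁ hE y hy f hf
  let R : Subring F₁ := O₁.toSubring ⊓ (K⟮x⟯).toSubring
  let φR : R →+* O₂ :=
    { toFun := fun r => ⟨φ (r : F₁),
        fr_map_mem_base hO₁ hO₁' hρ₁ hker₁ x hx htr₁ hO₂ hρ₂ hker₂ φ hφx htr₂ _ r.2.1 r.2.2⟩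
      map_one' := Subtype.ext (map_one φ)
      map_mul' := fun a b => Subtype.ext (map_mul φ _ _)
      map_zero' := Subtype.ext (map_zero φ)
      map_add' := fun a b => Subtype.ext (map_add φ _ _) }
  have hcomp : (O₂.subtype : O₂ →+* F₂).comp φR = (φ : F₁ →+* F₂).comp (algebraMap R F₁) := by
    ext r
    rfl
  have hqφ : q.eval₂ ((O₂.subtype : O₂ →+* F₂).comp φR) (φ f) = 0 := by
    rw [hcomp]
    have h1 := Polynomial.hom_eval₂ q (algebraMap R F₁) (φ : F₁ →+* F₂) f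
    rw [hqf, map_zero] at h1
    exact h1.symm
  have hintO : IsIntegral O₂ (φ f) := by
    refine ⟨q.map φR, hq.map _, ?_⟩
    rw [Polynomial.eval₂_map]
    exact hqφ
  obtain ⟨w, hw⟩ := IsIntegrallyClosed.isIntegral_iff.mp hintO
  rw [← hw]
  exact w.2

/-- `φ` maps the nonunits of `O₁` into the kernel of `ρ₂`. -/
theorem fr_map_nonunit (hO₁ : ∀ c : K, c ∈ A → algebraMap K F₁ c ∈ O₁)
    (hO₁' : ∀ c : K, algebraMap K F₁ c ∈ O₁ → c ∈ A)
    (hval₁ : ∀ f : F₁, f ≠ 0 → ∃ c : K, c ≠ 0 ∧ ∃ h : algebraMap K F₁ c * f ∈ O₁,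
      IsUnit (⟨_, h⟩ : O₁))
    (hO₂ : ∀ c : K, c ∈ A → algebraMap K F₂ c ∈ O₂)
    (hρ₂ : ∀ (c : K) (hc : c ∈ A), ρ₂ ⟨algebraMap K F₂ c, hO₂ c hc⟩ =
      algebraMap (IsLocalRing.ResidueField A) κ₂ (IsLocalRing.residue A ⟨c, hc⟩))
    (φ : F₁ →ₐ[K] F₂) (hφ : ∀ f ∈ O₁, φ f ∈ O₂)
    (u : O₁) (hu : ¬ IsUnit u) : ρ₂ ⟨φ (u : F₁), hφ _ u.2⟩ = 0 := by
  by_cases hu0 : (u : F₁) = 0
  · have : (⟨φ (u : F₁), hφ _ u.2⟩ : O₂) = 0 := by
      apply Subtype.ext
      show φ (u : F₁) = 0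
      rw [hu0, map_zero]
    rw [this, map_zero]
  obtain ⟨c, hc0, hmem, hunit⟩ := hval₁ (u : F₁) hu0
  obtain ⟨w, hw⟩ := hunit
  have hwF : ((w : O₁) : F₁) = algebraMap K F₁ c * (u : F₁) := congrArg Subtype.val hw
  have hinvw : (((w⁻¹ : O₁ˣ) : O₁) : F₁) = (((w : O₁) : F₁))⁻¹ := by
    have h5 : ((w : O₁) : F₁) * (((w⁻¹ : O₁ˣ) : O₁) : F₁) = 1 :=
      congrArg (fun z : O₁ => (z : F₁)) (Units.mul_inv w)
    exact eq_inv_of_mul_eq_one_right h5
  have hcF : algebraMap K F₁ c ≠ 0 := by simpa using hc0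
  -- `c⁻¹ = u · w⁻¹ ∈ O₁`
  have h1 : algebraMap K F₁ c⁻¹ = (u : F₁) * (((w⁻¹ : O₁ˣ) : O₁) : F₁) := by
    rw [hinvw, hwF, map_inv₀]
    field_simp
  have hcO : algebraMap K F₁ c⁻¹ ∈ O₁ := by
    rw [h1]
    exact mul_mem u.2 ((w⁻¹ : O₁ˣ) : O₁).2
  have hcA : c⁻¹ ∈ A := hO₁' _ hcO
  -- `c⁻¹` is not a unit of `A`
  have hcnu : ¬ IsUnit (⟨c⁻¹, hcA⟩ : A) := by
    intro hcu
    have hcA' : c ∈ A := by
      obtain ⟨v, hv⟩ := hcu
      have h2 : ((v : A) : K) * (((v⁻¹ : Aˣ) : A) : K) = 1 :=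
        congrArg (fun z : A => (z : K)) (Units.mul_inv v)
      have h3 : ((v : A) : K) = c⁻¹ := congrArg Subtype.val hv
      rw [h3] at h2
      have h4 : (((v⁻¹ : Aˣ) : A) : K) = c := by
        have := eq_inv_of_mul_eq_one_right h2
        rw [this, inv_inv]
      rw [← h4]
      exact ((v⁻¹ : Aˣ) : A).2
    apply hu
    have h5 : u * (⟨algebraMap K F₁ c, hO₁ c hcA'⟩ * ((w⁻¹ : O₁ˣ) : O₁)) = 1 := by
      apply Subtype.ext
      show (u : F₁) * (algebraMap K F₁ c * (((w⁻¹ : O₁ˣ) : O₁) : F₁)) = 1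
      rw [hinvw, hwF]
      field_simp
    exact IsUnit.of_mul_eq_one _ h5
  have hres : IsLocalRing.residue A ⟨c⁻¹, hcA⟩ = 0 := by
    rw [IsLocalRing.residue_eq_zero_iff, IsLocalRing.mem_maximalIdeal, mem_nonunits_iff]
    exact hcnu
  -- `φ u = c⁻¹ · φ w`
  have h6 : (⟨φ (u : F₁), hφ _ u.2⟩ : O₂) =
      ⟨algebraMap K F₂ c⁻¹, hO₂ _ hcA⟩ * ⟨φ ((w : O₁) : F₁), hφ _ (w : O₁).2⟩ := by
    apply Subtype.ext
    show φ (u : F₁) = algebraMap K F₂ c⁻¹ * φ ((w : O₁) : F₁)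
    rw [hwF, map_mul, AlgHom.commutes, ← mul_assoc, ← map_mul, inv_mul_cancel₀ hc0, map_one,
      one_mul]
  rw [h6, map_mul, hρ₂ _ hcA, hres, map_zero, zero_mul]

/-- **the induced map of residue fields**: `ι : κ₁ →ₐ[k] κ₂` with `ι (ρ₁ f) = ρ₂ (φ f)`. -/
theorem fr_exists_resHom (hO₁ : ∀ c : K, c ∈ A → algebraMap K F₁ c ∈ O₁)
    (hO₁' : ∀ c : K, algebraMap K F₁ c ∈ O₁ → c ∈ A)
    (hρ₁ : ∀ (c : K) (hc : c ∈ A), ρ₁ ⟨algebraMap K F₁ c, hO₁ c hc⟩ =
      algebraMap (IsLocalRing.ResidueField A) κ₁ (IsLocalRing.residue A ⟨c, hc⟩))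
    (hker₁ : ∀ u : O₁, ¬ IsUnit u → ρ₁ u = 0) (hsurj₁ : Function.Surjective ρ₁)
    (hval₁ : ∀ f : F₁, f ≠ 0 → ∃ c : K, c ≠ 0 ∧ ∃ h : algebraMap K F₁ c * f ∈ O₁,
      IsUnit (⟨_, h⟩ : O₁))
    (x : F₁) (hx : x ∈ O₁) (htr₁ : Transcendental (IsLocalRing.ResidueField A) (ρ₁ ⟨x, hx⟩))
    [FiniteDimensional K⟮x⟯ F₁]
    (hdeg : Module.finrank K⟮x⟯ F₁ ≤
      Module.finrank (IsLocalRing.ResidueField A)⟮ρ₁ ⟨x, hx⟩⟯ κ₁)
    (hO₂ : ∀ c : K, c ∈ A → algebraMap K F₂ c ∈ O₂)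
    (hρ₂ : ∀ (c : K) (hc : c ∈ A), ρ₂ ⟨algebraMap K F₂ c, hO₂ c hc⟩ =
      algebraMap (IsLocalRing.ResidueField A) κ₂ (IsLocalRing.residue A ⟨c, hc⟩))
    (hker₂ : ∀ u : O₂, ¬ IsUnit u → ρ₂ u = 0)
    (φ : F₁ →ₐ[K] F₂) (hφx : φ x ∈ O₂)
    (htr₂ : Transcendental (IsLocalRing.ResidueField A) (ρ₂ ⟨φ x, hφx⟩)) :
    ∃ (hφ : ∀ f ∈ O₁, φ f ∈ O₂) (ι : κ₁ →ₐ[IsLocalRing.ResidueField A] κ₂),
      ∀ (f : F₁) (hf : f ∈ O₁), ι (ρ₁ ⟨f, hf⟩) = ρ₂ ⟨φ f, hφ f hf⟩ := by
  have hφ : ∀ f ∈ O₁, φ f ∈ O₂ := fun f hf =>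
    fr_map_mem hO₁ hO₁' hρ₁ hker₁ hsurj₁ x hx htr₁ hdeg hO₂ hρ₂ hker₂ φ hφx htr₂ f hf
  let g : O₁ →+* κ₂ := ρ₂.comp
    { toFun := fun f => (⟨φ (f : F₁), hφ _ f.2⟩ : O₂)
      map_one' := Subtype.ext (map_one φ)
      map_mul' := fun a b => Subtype.ext (map_mul φ _ _)
      map_zero' := Subtype.ext (map_zero φ)
      map_add' := fun a b => Subtype.ext (map_add φ _ _) }
  have hg : ∀ f : O₁, g f = ρ₂ ⟨φ (f : F₁), hφ _ f.2⟩ := fun f => rfl
  have hkerg : RingHom.ker ρ₁ ≤ RingHom.ker g := by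
    intro u hu
    rw [RingHom.mem_ker] at hu ⊢
    have hnu : ¬ IsUnit u := by
      intro hunit
      have := hunit.map ρ₁
      rw [hu] at this
      exact not_isUnit_zero this
    rw [hg]
    exact fr_map_nonunit hO₁ hO₁' hval₁ hO₂ hρ₂ φ hφ u hnu
  let ι₀ : κ₁ →+* κ₂ := RingHom.liftOfSurjective ρ₁ hsurj₁ ⟨g, hkerg⟩
  have hι₀ : ∀ f : O₁, ι₀ (ρ₁ f) = g f := fun f =>
    RingHom.liftOfRightInverse_comp_apply ρ₁ _ (Function.rightInverse_surjInv hsurj₁) ⟨g, hkerg⟩ f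
  have hcomm : ∀ c : IsLocalRing.ResidueField A,
      ι₀ (algebraMap (IsLocalRing.ResidueField A) κ₁ c) =
        algebraMap (IsLocalRing.ResidueField A) κ₂ c := by
    intro c
    obtain ⟨a, rfl⟩ := IsLocalRing.residue_surjective c
    have h1 := hρ₁ (a : K) a.2
    have h2 := hρ₂ (a : K) a.2
    rw [← h1, hι₀, hg, ← h2]
    congr 1
    apply Subtype.ext
    exact φ.commutes _
  refine ⟨hφ, { ι₀ with commutes' := hcomm }, fun f hf => ?_⟩
  exact hι₀ ⟨f, hf⟩

end Transport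

end Fermat.Agent.S48WG23
end
end MergeWrap_S48_W_G_P23_FrickeAbs

section MergeWrap_S48_W_G_P23_FrickePhi -- from S48/W/G/P23/FrickePhi.lean

/-!
# S48 wall (W), block G, seat G-23 BASE via the Fricke involution, char-`0` map (helper10)

`frickePhi r s : F̄_r →ₐ[ℚ̄] ℚ̄ · FOne (r s)`, `φ = (q ↦ q^s) ∘ W_r`, where `W_r` is the Fricke
involution (`AtkinLehner.atkinLehner` with `Q = r`, `R = 1`) of the function field of `X₀(r)`:

* `frickePhi_jF`   : `φ (j(q^d)) = j(q^{s e})` for `d e = r`;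
* `frickePhi_jBar` : `φ (j) = j(q^{r s})`, the base function of G-RED at level `r s`.
-/

set_option autoImplicit false
set_option linter.unusedVariables false
set_option linter.unusedSectionVars false
set_option linter.style.haveILetI false
set_option synthInstance.maxHeartbeats 400000

noncomputable section

namespace Fermat.Agent.S48WG23

open ModularCurve IntermediateField Fermat.Agent.AtkinLehner Fermat.Agent.S24 Fermat.Agent.S48W

/-- `qExpand` only depends on the number. -/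
theorem qExpand_congr_nat {R : Type*} [CommRing R] {a b : ℕ} [NeZero a] [NeZero b] (h : a = b)
    (f : LaurentSeries R) : qExpand R a f = qExpand R b f := by
  subst h
  rfl

/-- the Fricke data `Q = r`, `R = 1`. -/
def frickeData (r : ℕ) [NeZero r] : ALData :=
  ⟨r, 1, 1, (r : ℤ) - 1, Nat.pos_of_ne_zero (NeZero.ne r), one_pos, by push_cast; ring⟩

theorem frickeData_mul (r : ℕ) [NeZero r] : (frickeData r).Q * (frickeData r).R = r :=
  Nat.mul_one r

/-- transport of the Atkin–Lehner involution along `Q R = N`. -/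
def alCast (D : ALData) {N : ℕ} (h : D.Q * D.R = N) :
    ↥(modularFunctionFieldBar N) ≃ₐ[Kbar] ↥(modularFunctionFieldBar N) :=
  h ▸ atkinLehner D

theorem alCast_jF (D : ALData) {N : ℕ} (h : D.Q * D.R = N) (d e : ℕ) [NeZero d] [NeZero e]
    (hde : d * e = D.Q) (hR : D.R = 1) (hd : d ∣ N) (he : e ∣ N) :
    alCast D h (jF N d hd) = jF N e he := by
  subst h
  haveI : NeZero (d * 1) := ⟨by rw [mul_one]; exact NeZero.ne d⟩
  haveI : NeZero (e * 1) := ⟨by rw [mul_one]; exact NeZero.ne e⟩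
  have h1 : d * 1 ∣ D.Q * D.R := by rw [mul_one]; exact hd
  have h2 : e * 1 ∣ D.Q * D.R := by rw [mul_one]; exact he
  have key := atkinLehner_jF D d e 1 1 hde (by rw [hR]) h1 h2
  rw [jF_congr (D.Q * D.R) (mul_one d).symm hd h1, jF_congr (D.Q * D.R) (mul_one e).symm he h2]
  exact key

/-- **the Fricke involution** `W_r` of the function field of `X₀(r)` over `ℚ̄`. -/
def frickeInv (r : ℕ) [NeZero r] :
    ↥(modularFunctionFieldBar r) ≃ₐ[Kbar] ↥(modularFunctionFieldBar r) :=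
  alCast (frickeData r) (frickeData_mul r)

/-- `W_r (j(q^d)) = j(q^{r/d})`. -/
theorem frickeInv_jF (r d e : ℕ) [NeZero r] [NeZero d] [NeZero e] (hde : d * e = r)
    (hd : d ∣ r) (he : e ∣ r) : frickeInv r (jF r d hd) = jF r e he :=
  alCast_jF (frickeData r) (frickeData_mul r) d e hde rfl hd he

/-- `j(q^{s d})`, `d ∣ r`, lies in `ℚ̄ · FOne (r s)`. -/
theorem qExpand_jqModC_mem_FOneBar (r s d : ℕ) [NeZero (r * s)] [NeZero (s * d)] (hd : d ∣ r) :
    qExpand Kbar (s * d) (jqModC Kbar) ∈ FOneBar (r * s) := by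
  rw [← coeffEmb_qExpand_jq]
  refine coeffEmb_mem_laurentBaseChange Kbar (full_le_FOne (r * s) (jqd_mem_full (r * s) ?_))
  rw [mul_comm s d]
  exact Nat.mul_dvd_mul_right hd s

/-- the scaled function field of `X₀(r)` lies in `ℚ̄ · FOne (r s)`. -/
theorem map_FBar_le_FOneBar (r s : ℕ) [NeZero r] [NeZero s] [NeZero (r * s)] :
    (modularFunctionFieldBar r).map (qExpandAlgHomC Kbar s) ≤ FOneBar (r * s) := by
  rw [modularFunctionFieldBar_eq_adjoin, IntermediateField.adjoin_map, adjoin_le_iff]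
  rintro x ⟨y, ⟨d, hne, hdvd, rfl⟩, rfl⟩
  have := hne
  haveI hsd : NeZero (s * d) := ⟨Nat.mul_ne_zero (NeZero.ne s) (NeZero.ne d)⟩
  rw [qExpandAlgHomC_apply, qExpand_qExpand]
  exact qExpand_jqModC_mem_FOneBar r s d hdvd

/-- the scaling `f(q) ↦ f(q^s)`, from the function field of `X₀(r)` to that of `X₁(r s)`. -/
def scaleBar (r s : ℕ) [NeZero r] [NeZero s] [NeZero (r * s)] :
    ↥(modularFunctionFieldBar r) →ₐ[Kbar] ↥(FOneBar (r * s)) :=
  (IntermediateField.inclusion (map_FBar_le_FOneBar r s)).comp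
    ((modularFunctionFieldBar r).equivMap (qExpandAlgHomC Kbar s)).toAlgHom

theorem coe_scaleBar (r s : ℕ) [NeZero r] [NeZero s] [NeZero (r * s)]
    (f : ↥(modularFunctionFieldBar r)) :
    ((scaleBar r s f : ↥(FOneBar (r * s))) : LaurentSeries Kbar) =
      qExpand Kbar s (f : LaurentSeries Kbar) := rfl

/-- **the char-`0` map** `φ = (q ↦ q^s) ∘ W_r`. -/
def frickePhi (r s : ℕ) [NeZero r] [NeZero s] [NeZero (r * s)] :
    ↥(modularFunctionFieldBar r) →ₐ[Kbar] ↥(FOneBar (r * s)) :=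
  (scaleBar r s).comp (frickeInv r).toAlgHom

theorem frickePhi_apply (r s : ℕ) [NeZero r] [NeZero s] [NeZero (r * s)]
    (f : ↥(modularFunctionFieldBar r)) :
    frickePhi r s f = scaleBar r s (frickeInv r f) := rfl

/-- `φ (j(q^d)) = j(q^{s e})` for `d e = r`. -/
theorem frickePhi_jF (r s d e : ℕ) [NeZero r] [NeZero s] [NeZero (r * s)] [NeZero d] [NeZero e]
    [NeZero (s * e)] (hde : d * e = r) (hd : d ∣ r) :
    ((frickePhi r s (jF r d hd) : ↥(FOneBar (r * s))) : LaurentSeries Kbar) =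
      qExpand Kbar (s * e) (jqModC Kbar) := by
  rw [frickePhi_apply, frickeInv_jF r d e hde hd ⟨d, by rw [← hde, mul_comm]⟩, coe_scaleBar,
    coe_jF, qExpand_qExpand]

theorem jBar_eq_jF (r : ℕ) [NeZero r] : jBar r = jF r 1 (one_dvd r) := by
  apply Subtype.ext
  rw [coe_jBar_eq_jqModC, coe_jF, qExpand_one_apply]

/-- **`φ (j) = j(q^{r s})`**: the image of `j` is the base function of G-RED at level `r s`. -/
theorem frickePhi_jBar (r s : ℕ) [NeZero r] [NeZero s] [NeZero (r * s)] :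
    ((frickePhi r s (jBar r) : ↥(FOneBar (r * s))) : LaurentSeries Kbar) =
      qExpand Kbar (r * s) (jqModC Kbar) := by
  haveI : NeZero (s * r) := ⟨Nat.mul_ne_zero (NeZero.ne s) (NeZero.ne r)⟩
  rw [jBar_eq_jF, frickePhi_jF r s 1 r (one_mul r) (one_dvd r)]
  exact qExpand_congr_nat (mul_comm s r) _

/-- `φ` is injective (a homomorphism of fields). -/
theorem frickePhi_injective (r s : ℕ) [NeZero r] [NeZero s] [NeZero (r * s)] :
    Function.Injective (frickePhi r s) :=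
  (frickePhi r s).toRingHom.injective

end Fermat.Agent.S48WG23
end
end MergeWrap_S48_W_G_P23_FrickePhi

section MergeWrap_S48_W_G_P23_Base -- from S48/W/G/P23/Base.lean

/-!
# S48 wall (W), block G, seat G-23 BASE (helper10)

The genus-`0` base `B = modularFunctionFieldFullC k r` inside the residue field of the Gauss
valuation of `F = ℚ̄ F₀`, when `F₀ ⊇ modularFunctionFieldFull r`:
the generators `j̄(q^d)`, `d ∣ r`, are the residues of the integral series `j(q^d) ∈ F`.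

* `coeffEmb_jq_mem_gaussSub` : `j ∈ F₀ ⟹ j ∈ O` (the Gauss ring);
* `gaussResFun_coeffEmb_jq`  : the residue of `j` is `j̄ = jqModC k`;
* `fullC_le_resField`        : `modularFunctionFieldFullC k r ≤ resField A F₀`;
* `exists_baseEmb`           : the embedding `B →ₐ[k] resField A F₀`, `jC ↦ resElt j`.
-/

set_option autoImplicit false
set_option linter.unusedVariables false
set_option linter.unusedSectionVars false
set_option synthInstance.maxHeartbeats 400000

noncomputable section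

namespace Fermat.Agent.S48WG23

open ModularCurve AlgebraicCurve IntermediateField Fermat.Agent.GaussInt Fermat.Agent.S48WG

local notation "Kb" => AlgebraicClosure ℚ

variable {A : ValuationSubring Kb} {F₀ : IntermediateField ℚ (LaurentSeries ℚ)} {ℓ : ℕ}

/-- `j(q^d)` over `ℚ̄`, as the image of the integral series over `A`. -/
theorem base_emb_qExpand (d : ℕ) [NeZero d] :
    emb A (qExpand A d (jqModC A)) = coeffEmb Kb (qExpand ℚ d jq) := by
  show coeffMap A.subtype (qExpand A d (jqModC A)) = coeffMap (algebraMap ℚ Kb) (qExpand ℚ d jq)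
  rw [coeffMap_qExpand, coeffMap_jqModC, coeffMap_qExpand, ← jqModC_rat, coeffMap_jqModC]

theorem base_emb_jq : emb A (jqModC A) = coeffEmb Kb jq := by
  show coeffMap A.subtype (jqModC A) = coeffMap (algebraMap ℚ Kb) jq
  rw [coeffMap_jqModC, ← jqModC_rat, coeffMap_jqModC]

theorem base_red_qExpand (d : ℕ) [NeZero d] :
    red A (qExpand A d (jqModC A))
      = qExpand (IsLocalRing.ResidueField A) d (jqModC (IsLocalRing.ResidueField A)) := by
  show coeffMap (IsLocalRing.residue A) (qExpand A d (jqModC A)) = _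
  rw [coeffMap_qExpand, coeffMap_jqModC]

theorem base_red_jq : red A (jqModC A) = jqModC (IsLocalRing.ResidueField A) := by
  show coeffMap (IsLocalRing.residue A) (jqModC A) = _
  rw [coeffMap_jqModC]

/-- `j` lies in the Gauss ring. -/
theorem coeffEmb_jq_mem_gaussSub (hjq : jq ∈ F₀) :
    coeffEmb Kb jq ∈ gaussSub A (laurentBaseChange Kb F₀) := by
  rw [← base_emb_jq (A := A)]
  apply emb_mem_gaussSub
  rw [base_emb_jq]
  exact coeffEmb_mem_laurentBaseChange Kb hjq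

/-- the residue of `j` is `j̄`. -/
theorem gaussResFun_coeffEmb_jq
    (hx : coeffEmb Kb jq ∈ gaussSub A (laurentBaseChange Kb F₀)) :
    gaussResFun A (laurentBaseChange Kb F₀) (coeffEmb Kb jq)
      = jqModC (IsLocalRing.ResidueField A) := by
  have hmem : emb A (jqModC A) ∈ laurentBaseChange Kb F₀ := by
    rw [base_emb_jq]
    exact mem_of_mem_gaussSub hx
  rw [← base_emb_jq (A := A), gaussResFun_emb hmem, base_red_jq]

/-- `j̄(q^d)`, `d ∣ r`, is a residue. -/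
theorem qExpand_jqModC_mem_resSet (r : ℕ) [NeZero r] (hr : modularFunctionFieldFull r ≤ F₀)
    {d : ℕ} [NeZero d] (hd : d ∣ r) :
    qExpand (IsLocalRing.ResidueField A) d (jqModC (IsLocalRing.ResidueField A))
      ∈ resSet A F₀ := by
  have hmem : emb A (qExpand A d (jqModC A)) ∈ laurentBaseChange Kb F₀ := by
    rw [base_emb_qExpand]
    exact coeffEmb_mem_laurentBaseChange Kb (hr (jqd_mem_full r hd))
  refine ⟨emb A (qExpand A d (jqModC A)), emb_mem_gaussSub hmem, ?_⟩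
  rw [gaussResFun_emb hmem, base_red_qExpand]

/-- the base field lies in the residue field. -/
theorem fullC_le_resField (r : ℕ) [NeZero r] (hr : modularFunctionFieldFull r ≤ F₀) :
    modularFunctionFieldFullC (IsLocalRing.ResidueField A) r ≤ resField A F₀ := by
  rw [modularFunctionFieldFullC, adjoin_le_iff]
  rintro x ⟨d, hne, hdvd, rfl⟩
  have := hne
  exact subset_adjoin _ _ (qExpand_jqModC_mem_resSet r hr hdvd)

/-- **BASE**: the genus-`0` base inside the residue field. -/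
theorem exists_baseEmb (hℓ : ℓ.Prime) (hA : A.LiesOverPrime ℓ) (r : ℕ) [NeZero r]
    (hr : modularFunctionFieldFull r ≤ F₀)
    (hx : coeffEmb Kb jq ∈ gaussSub A (laurentBaseChange Kb F₀)) :
    ∃ ι : ↥(modularFunctionFieldFullC (IsLocalRing.ResidueField A) r)
        →ₐ[IsLocalRing.ResidueField A] ↥(resField A F₀),
      ι (Fermat.Agent.RRMod.jC (IsLocalRing.ResidueField A) r) = resElt hx := by
  refine ⟨IntermediateField.inclusion (fullC_le_resField r hr), ?_⟩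
  apply Subtype.ext
  show jqModC (IsLocalRing.ResidueField A)
    = gaussResFun A (laurentBaseChange Kb F₀) (coeffEmb Kb jq)
  rw [gaussResFun_coeffEmb_jq hx]

end Fermat.Agent.S48WG23
end
end MergeWrap_S48_W_G_P23_Base

section MergeWrap_S48_W_G_P23_BaseScaled -- from S48/W/G/P23/BaseScaled.lean

/-!
# S48 wall (W), block G, seat G-23 BASE, scaled form (helper10)

The base function of G-RED at level `M'` is `j(q^{M'})`, not `j(q)`.  So the genus-`0` base
`B = modularFunctionFieldFullC k r` is embedded in the residue field through `f(q) ↦ f(q^s)`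
(`s = M' / r`):

* `exists_baseEmb_scaled` : `ι_s : B →ₐ[k] resField A F₀` with `ι_s f = f(q^s)` as series,
  as soon as `j(q^{s d}) ∈ F₀` for all `d ∣ r`;
* `gaussResFun_coeffEmb_qExpand` : the residue of `j(q^n)` is `j̄(q^n)`.
-/

set_option autoImplicit false
set_option linter.unusedVariables false
set_option linter.unusedSectionVars false
set_option synthInstance.maxHeartbeats 400000

noncomputable section

namespace Fermat.Agent.S48WG23

open ModularCurve AlgebraicCurve IntermediateField Fermat.Agent.GaussInt Fermat.Agent.S48WG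

local notation "Kb" => AlgebraicClosure ℚ

variable {A : ValuationSubring Kb} {F₀ : IntermediateField ℚ (LaurentSeries ℚ)}

/-- `j(q^n)` lies in the Gauss ring. -/
theorem coeffEmb_qExpand_jq_mem_gaussSub (n : ℕ) [NeZero n] (h : qExpand ℚ n jq ∈ F₀) :
    coeffEmb Kb (qExpand ℚ n jq) ∈ gaussSub A (laurentBaseChange Kb F₀) := by
  rw [← base_emb_qExpand (A := A)]
  apply emb_mem_gaussSub
  rw [base_emb_qExpand]
  exact coeffEmb_mem_laurentBaseChange Kb h

/-- the residue of `j(q^n)` is `j̄(q^n)`. -/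
theorem gaussResFun_coeffEmb_qExpand (n : ℕ) [NeZero n]
    (hx : coeffEmb Kb (qExpand ℚ n jq) ∈ gaussSub A (laurentBaseChange Kb F₀)) :
    gaussResFun A (laurentBaseChange Kb F₀) (coeffEmb Kb (qExpand ℚ n jq))
      = qExpand (IsLocalRing.ResidueField A) n (jqModC (IsLocalRing.ResidueField A)) := by
  have hmem : emb A (qExpand A n (jqModC A)) ∈ laurentBaseChange Kb F₀ := by
    rw [base_emb_qExpand]
    exact mem_of_mem_gaussSub hx
  rw [← base_emb_qExpand (A := A), gaussResFun_emb hmem, base_red_qExpand]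

/-- `j̄(q^n)` is a residue as soon as `j(q^n) ∈ F₀`. -/
theorem qExpand_jqModC_mem_resSet_of_mem (n : ℕ) [NeZero n] (h : qExpand ℚ n jq ∈ F₀) :
    qExpand (IsLocalRing.ResidueField A) n (jqModC (IsLocalRing.ResidueField A))
      ∈ resSet A F₀ :=
  ⟨_, coeffEmb_qExpand_jq_mem_gaussSub n h,
    gaussResFun_coeffEmb_qExpand n (coeffEmb_qExpand_jq_mem_gaussSub n h)⟩

/-- the scaled base field lies in the residue field. -/
theorem map_fullC_le_resField (r s : ℕ) [NeZero r] [NeZero s]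
    (hr : ∀ (d : ℕ) [NeZero d] [NeZero (s * d)], d ∣ r → qExpand ℚ (s * d) jq ∈ F₀) :
    (modularFunctionFieldFullC (IsLocalRing.ResidueField A) r).map
        (qExpandAlgHomC (IsLocalRing.ResidueField A) s) ≤ resField A F₀ := by
  rw [modularFunctionFieldFullC, IntermediateField.adjoin_map, adjoin_le_iff]
  rintro x ⟨y, ⟨d, hne, hdvd, rfl⟩, rfl⟩
  have := hne
  have hsd : NeZero (s * d) := ⟨Nat.mul_ne_zero (NeZero.ne s) (NeZero.ne d)⟩
  rw [qExpandAlgHomC_apply, qExpand_qExpand]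
  exact subset_adjoin _ _ (qExpand_jqModC_mem_resSet_of_mem (s * d) (hr d hdvd))

/-- **BASE, scaled**: `ι_s : B →ₐ[k] resField A F₀`, `f(q) ↦ f(q^s)`. -/
theorem exists_baseEmb_scaled (r s : ℕ) [NeZero r] [NeZero s]
    (hr : ∀ (d : ℕ) [NeZero d] [NeZero (s * d)], d ∣ r → qExpand ℚ (s * d) jq ∈ F₀) :
    ∃ ι : ↥(modularFunctionFieldFullC (IsLocalRing.ResidueField A) r)
        →ₐ[IsLocalRing.ResidueField A] ↥(resField A F₀),
      ∀ f : ↥(modularFunctionFieldFullC (IsLocalRing.ResidueField A) r),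
        ((ι f : ↥(resField A F₀)) : LaurentSeries (IsLocalRing.ResidueField A))
          = qExpand (IsLocalRing.ResidueField A) s
              (f : LaurentSeries (IsLocalRing.ResidueField A)) := by
  refine ⟨(IntermediateField.inclusion (map_fullC_le_resField r s hr)).comp
    ((modularFunctionFieldFullC (IsLocalRing.ResidueField A) r).equivMap
      (qExpandAlgHomC (IsLocalRing.ResidueField A) s)).toAlgHom, fun f => ?_⟩
  rfl

/-- the image of `j̄(q^d)` (`d ∣ r`) under `ι_s` is the residue of `j(q^{s d})`. -/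
theorem baseEmb_scaled_jqd (r s : ℕ) [NeZero r] [NeZero s]
    (ι : ↥(modularFunctionFieldFullC (IsLocalRing.ResidueField A) r)
        →ₐ[IsLocalRing.ResidueField A] ↥(resField A F₀))
    (hι : ∀ f : ↥(modularFunctionFieldFullC (IsLocalRing.ResidueField A) r),
        ((ι f : ↥(resField A F₀)) : LaurentSeries (IsLocalRing.ResidueField A))
          = qExpand (IsLocalRing.ResidueField A) s
              (f : LaurentSeries (IsLocalRing.ResidueField A)))
    (d : ℕ) [NeZero d] [NeZero (s * d)] (hd : d ∣ r)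
    (hx : coeffEmb Kb (qExpand ℚ (s * d) jq) ∈ gaussSub A (laurentBaseChange Kb F₀)) :
    ι ⟨qExpand (IsLocalRing.ResidueField A) d (jqModC (IsLocalRing.ResidueField A)),
        subset_adjoin _ _ (mem_divisorExpansionsC (IsLocalRing.ResidueField A) r hd)⟩
      = resElt hx := by
  apply Subtype.ext
  rw [hι]
  show qExpand (IsLocalRing.ResidueField A) s
      (qExpand (IsLocalRing.ResidueField A) d (jqModC (IsLocalRing.ResidueField A)))
    = gaussResFun A (laurentBaseChange Kb F₀) (coeffEmb Kb (qExpand ℚ (s * d) jq))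
  rw [gaussResFun_coeffEmb_qExpand (s * d) hx, qExpand_qExpand]

end Fermat.Agent.S48WG23
end
end MergeWrap_S48_W_G_P23_BaseScaled

section MergeWrap_S48_W_G_P23_FrickeRed -- from S48/W/G/P23/FrickeRed.lean

set_option autoImplicit false
set_option linter.unusedVariables false
set_option linter.unusedSectionVars false
set_option linter.style.haveILetI false
set_option synthInstance.maxHeartbeats 400000
set_option maxHeartbeats 1000000

noncomputable section

namespace Fermat.Agent.S48WG23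

open ModularCurve AlgebraicCurve IntermediateField Fermat.Agent.GaussInt Fermat.Agent.S48WG
  Fermat.Agent.S48W Fermat.Agent.S24 Fermat.Agent.GoodRed

local notation "Kb" => AlgebraicClosure ℚ

variable {A : ValuationSubring Kb} {ℓ : ℕ}

/-- **FRICKE**: the genus-`0` base of level `r` inside the residue field of `ℚ̄ F₁(r s)`, with
`j̄ ↦` the residue of the base function `j(q^{r s})` of G-RED. -/
theorem exists_baseEmb_fricke (hℓ : ℓ.Prime) (hA : A.LiesOverPrime ℓ) (r s : ℕ) [NeZero r]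
    [NeZero s] [NeZero (r * s)] (hℓr : ¬ ℓ ∣ r)
    (hx : qExpand Kb (r * s) (jqModC Kb) ∈ gaussSub A (laurentBaseChange Kb (FOne (r * s))))
    (htr : Transcendental (IsLocalRing.ResidueField A) (resElt hx)) :
    ∃ ι : ↥(modularFunctionFieldFullC (IsLocalRing.ResidueField A) r)
        →ₐ[IsLocalRing.ResidueField A] ↥(resField A (FOne (r * s))),
      ι (Fermat.Agent.RRMod.jC (IsLocalRing.ResidueField A) r) = resElt hx := by
  haveI : IsAlgClosed (IsLocalRing.ResidueField A) :=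
    Fermat.Agent.FrobTrace.isAlgClosed_residueField A
  haveI : Fact ℓ.Prime := ⟨hℓ⟩
  have h₁ : GaussHyp A (modularFunctionFieldFull r) ℓ := gaussHyp_modular r hℓ hA
  have h₂ : GaussHyp A (FOne (r * s)) ℓ := ⟨hℓ, hA, isIntGen_FOne A (r * s)⟩
  obtain ⟨hR3, hRS⟩ := rangeAt r hℓ hA hℓr
  -- the two residue maps
  set O₁ := gaussValSub h₁ with hO₁def
  set ρ₁ := gaussValResTo h₁ (modularFunctionFieldFullC (IsLocalRing.ResidueField A) r) hR3
    with hρ₁def
  have hR3₂ : ∀ f ∈ gaussSub A (laurentBaseChange Kb (FOne (r * s))),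
      gaussResFun A (laurentBaseChange Kb (FOne (r * s))) f ∈ resField A (FOne (r * s)) :=
    fun f hf => IntermediateField.subset_adjoin _ _ ⟨f, hf, rfl⟩
  set O₂ := gaussValSub h₂ with hO₂def
  set ρ₂ := gaussValResTo h₂ (resField A (FOne (r * s))) hR3₂ with hρ₂def
  -- the base function of level `r`
  have hjmem : (jBar r : ↥(modularFunctionFieldBar r)) ∈ O₁ := by
    show ((jBar r : ↥(modularFunctionFieldBar r)) : LaurentSeries Kb) ∈
      gaussSub A (laurentBaseChange Kb (modularFunctionFieldFull r))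
    rw [coe_jBar]
    exact coeffEmb_jq_mem_gaussSub (by
      have h := jqd_mem_full r (one_dvd r)
      rwa [qExpand_one_apply] at h)
  have hρj : ρ₁ ⟨jBar r, hjmem⟩ = Fermat.Agent.RRMod.jC (IsLocalRing.ResidueField A) r := by
    apply Subtype.ext
    show gaussResFun A (laurentBaseChange Kb (modularFunctionFieldFull r))
      ((jBar r : ↥(modularFunctionFieldBar r)) : LaurentSeries Kb) = _
    rw [coe_jBar]
    have hx' : coeffEmb Kb jq ∈ gaussSub A (laurentBaseChange Kb (modularFunctionFieldFull r)) := by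
      have := hjmem
      rwa [hO₁def, mem_gaussValSub_iff, coe_jBar] at this
    rw [gaussResFun_coeffEmb_jq hx']
    rfl
  have htr₁ : Transcendental (IsLocalRing.ResidueField A) (ρ₁ ⟨jBar r, hjmem⟩) := by
    rw [hρj]
    exact Fermat.Agent.RRMod.transcendental_jC (IsLocalRing.ResidueField A) r
  haveI : FiniteDimensional Kb⟮jBar r⟯ ↥(modularFunctionFieldBar r) :=
    (isFunctionFieldOver_jBar r).2
  have hdeg : Module.finrank Kb⟮jBar r⟯ ↥(modularFunctionFieldBar r) ≤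
      Module.finrank (IsLocalRing.ResidueField A)⟮ρ₁ ⟨jBar r, hjmem⟩⟯
        ↥(modularFunctionFieldFullC (IsLocalRing.ResidueField A) r) := by
    rw [hρj]
    exact (Fermat.Agent.GaussVal.finrank_fullC_eq_finrank_fullL A ℓ r hA hℓr
      (Fermat.Agent.RRMod.jC (IsLocalRing.ResidueField A) r) rfl (jBar r)
      (coe_jBar_eq_jqModC r)).ge
  have hval₁ : ∀ f : ↥(modularFunctionFieldBar r), f ≠ 0 → ∃ c : Kb, c ≠ 0 ∧
      ∃ h : algebraMap Kb ↥(modularFunctionFieldBar r) c * f ∈ O₁, IsUnit (⟨_, h⟩ : O₁) := by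
    intro f hf
    obtain ⟨c, hc, hmem, hres⟩ := exists_const_mul_mem_gaussSub h₁.isPrime h₁.liesOver
      h₁.isIntGen f.2 (fun h0 => hf (Subtype.ext h0))
    refine ⟨c, hc, hmem, ?_⟩
    rw [← not_not (a := IsUnit _),
      ← gaussValResTo_eq_zero_iff h₁ (modularFunctionFieldFullC (IsLocalRing.ResidueField A) r)
        hR3]
    intro h0
    exact hres (congrArg Subtype.val h0)
  -- the characteristic `0` map
  have hφx : frickePhi r s (jBar r) ∈ O₂ := by
    show ((frickePhi r s (jBar r) : ↥(FOneBar (r * s))) : LaurentSeries Kb) ∈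
      gaussSub A (laurentBaseChange Kb (FOne (r * s)))
    rw [frickePhi_jBar]
    exact hx
  have hρ₂x : ρ₂ ⟨frickePhi r s (jBar r), hφx⟩ = resElt hx := by
    apply Subtype.ext
    show gaussResFun A (laurentBaseChange Kb (FOne (r * s)))
      ((frickePhi r s (jBar r) : ↥(FOneBar (r * s))) : LaurentSeries Kb) =
      gaussResFun A (laurentBaseChange Kb (FOne (r * s))) (qExpand Kb (r * s) (jqModC Kb))
    rw [frickePhi_jBar]
  have htr₂ : Transcendental (IsLocalRing.ResidueField A) (ρ₂ ⟨frickePhi r s (jBar r), hφx⟩) := by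
    rw [hρ₂x]
    exact htr
  obtain ⟨hφ, ι, hι⟩ := fr_exists_resHom (A := A) (O₁ := O₁) (ρ₁ := ρ₁) (O₂ := O₂) (ρ₂ := ρ₂)
    (fun c hc => (gaussValSub_mem_iff_const h₁ c).mpr hc)
    (fun c hc => (gaussValSub_mem_iff_const h₁ c).mp hc)
    (fun c hc => gaussValResTo_algebraMap h₁ _ hR3 c hc _)
    (fun u hu => (gaussValResTo_eq_zero_iff h₁ _ hR3 u).mpr hu)
    (gaussValResTo_surjective h₁ _ hR3 hRS)
    hval₁ (jBar r) hjmem htr₁ hdeg
    (fun c hc => (gaussValSub_mem_iff_const h₂ c).mpr hc)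
    (fun c hc => gaussValResTo_algebraMap h₂ _ hR3₂ c hc _)
    (fun u hu => (gaussValResTo_eq_zero_iff h₂ _ hR3₂ u).mpr hu)
    (frickePhi r s) hφx htr₂
  refine ⟨ι, ?_⟩
  rw [← hρj, hι _ hjmem, hρ₂x]

end Fermat.Agent.S48WG23
end
end MergeWrap_S48_W_G_P23_FrickeRed

section MergeWrap_S48_W_G_P23_FrickeFinal -- from S48/W/G/P23/FrickeFinal.lean

set_option autoImplicit false
set_option linter.unusedVariables false
set_option linter.unusedSectionVars false
set_option linter.style.haveILetI false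
set_option synthInstance.maxHeartbeats 400000
set_option maxHeartbeats 1000000

noncomputable section

namespace Fermat.Agent.S48WG23

open ModularCurve AlgebraicCurve IntermediateField Fermat.Agent.GaussInt Fermat.Agent.S48WG
  Fermat.Agent.S48W

local notation "Kb" => AlgebraicClosure ℚ

/-- **(FRICKE)**, unconditional. -/
theorem frickeBaseStatement (r : ℕ) [NeZero r] : FrickeBaseStatement r := by
  intro M hM hrM ℓ hℓ hℓM A hA x hx hxe hbase
  obtain ⟨s, rfl⟩ := hrM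
  haveI : NeZero s := ⟨fun h0 => by
    have := NeZero.ne (r * s)
    rw [h0, Nat.mul_zero] at this
    exact this rfl⟩
  have hℓr : ¬ ℓ ∣ r := fun h => hℓM (Dvd.dvd.mul_right h s)
  subst hxe
  exact exists_baseEmb_fricke hℓ hA r s hℓr hx hbase.2.2.1

end Fermat.Agent.S48WG23
end
end MergeWrap_S48_W_G_P23_FrickeFinal
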